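import Mathlib

/-!
# S36 / ZC (design-independent algebra), slice 3: the BRANCH lemma (going-down)

`A₁ ⊆ A` an integral extension of domains, `A₁` integrally closed (the level-`qM'` model inside the
level-`q²M'` model along a degeneracy map).  Mathlib provides going-down in this situation
(`Algebra.HasGoingDown`).  Shape used for the triple points: if `P₀₂` is the ONLY prime of `A` over
the branch prime `p₂` of `A₁`, then every prime `t` of `A` over a prime `m ⊇ p₂` contains `P₀₂`:
"every point of the level-`q²` fibre over a node lies on `C₀₂`".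
-/

set_option autoImplicit false

namespace Fermat.Agent.S36.ZC

variable {A₁ A : Type*} [CommRing A₁] [CommRing A] [IsDomain A] [Algebra A₁ A]
  [FaithfulSMul A₁ A] [Algebra.IsIntegral A₁ A] [IsIntegrallyClosed A₁]

/-- going-down, as a plain statement about `comap`. -/
theorem exists_prime_le_comap_eq (p m : Ideal A₁) [p.IsPrime] [m.IsPrime] (hpm : p ≤ m)
    (t : Ideal A) [t.IsPrime] (ht : t.comap (algebraMap A₁ A) = m) :
    ∃ Q : Ideal A, Q ≤ t ∧ Q.IsPrime ∧ Q.comap (algebraMap A₁ A) = p := by
  have : t.LiesOver m := ⟨ht.symm⟩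
  obtain ⟨Q, hQt, hQp, hQo⟩ := Ideal.exists_ideal_le_liesOver_of_le (p := p) (q := m) t hpm
  exact ⟨Q, hQt, hQp, (hQo.over).symm⟩

/-- **BRANCH lemma.**  If `P` is the only prime of `A` over `p`, every prime of `A` lying over a
prime `m ⊇ p` contains `P`. -/
theorem le_of_unique_over (p m : Ideal A₁) [p.IsPrime] [m.IsPrime] (hpm : p ≤ m)
    (P : Ideal A)
    (huniq : ∀ Q : Ideal A, Q.IsPrime → Q.comap (algebraMap A₁ A) = p → Q = P)
    (t : Ideal A) [t.IsPrime] (ht : t.comap (algebraMap A₁ A) = m) : P ≤ t := by
  obtain ⟨Q, hQt, hQp, hQ⟩ := exists_prime_le_comap_eq p m hpm t ht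
  rw [← huniq Q hQp hQ]
  exact hQt

/-- Two primes of `A` over primes `m`, `m'` of `A₁` containing `p`, with `P` the unique prime over
`p` and such that at most one prime of `A` contains `P` and lies over `m`: they coincide. This is the
form "the point of `C₁₁` and the point of `C₂₀` over a node are THE point of `C₀₂` over it". -/
theorem eq_of_unique_over (p m : Ideal A₁) [p.IsPrime] [m.IsPrime] (hpm : p ≤ m)
    (P : Ideal A)
    (huniq : ∀ Q : Ideal A, Q.IsPrime → Q.comap (algebraMap A₁ A) = p → Q = P)
    (hinj : ∀ t t' : Ideal A, t.IsPrime → t'.IsPrime → P ≤ t → P ≤ t' →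
      t.comap (algebraMap A₁ A) = m → t'.comap (algebraMap A₁ A) = m → t = t')
    (t t' : Ideal A) [t.IsPrime] [t'.IsPrime]
    (ht : t.comap (algebraMap A₁ A) = m) (ht' : t'.comap (algebraMap A₁ A) = m) : t = t' :=
  hinj t t' inferInstance inferInstance (le_of_unique_over p m hpm P huniq t ht)
    (le_of_unique_over p m hpm P huniq t' ht') ht ht'

end Fermat.Agent.S36.ZC
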