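import Mathlib

/-!
# S36 / ZC (design-independent algebra), slice 1: Hensel for a nilpotent ideal

* `isAdicComplete_of_pow_eq_bot` : a ring is `I`-adically complete as soon as `I ^ N = ⊥`.
* `exists_root_of_pow_eq_bot` : Hensel's lemma for a nilpotent ideal (via Mathlib's
  `IsAdicComplete.henselianRing`).
* `eq_of_pow_eq_of_isNilpotent_sub` : uniqueness of `n`-th roots up to nilpotents: if `a ^ n = b ^ n`,
  `a - b` is nilpotent, and `n` and `b` are units, then `a = b`.
-/

set_option autoImplicit false

namespace Fermat.Agent.S36.ZC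

open Polynomial

variable {R : Type*} [CommRing R]

theorem isAdicComplete_of_pow_eq_bot (I : Ideal R) (N : ℕ) (hN : I ^ N = ⊥) :
    IsAdicComplete I R where
  haus' x hx := by
    have h := hx N
    rw [SModEq.zero, hN] at h
    simpa using h
  prec' f hf := by
    refine ⟨f N, fun n => ?_⟩
    rcases le_total n N with h | h
    · exact hf h
    · have h1 : f N ≡ f n [SMOD (I ^ N • ⊤ : Submodule R R)] := hf h
      rw [hN] at h1
      have h2 : f N = f n := by
        have := SModEq.sub_mem.mp h1
        simpa [sub_eq_zero] using this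
      rw [h2]

/-- Hensel's lemma for a nilpotent ideal. -/
theorem exists_root_of_pow_eq_bot (I : Ideal R) (N : ℕ) (hN : I ^ N = ⊥)
    (f : R[X]) (hf : f.Monic) (a₀ : R) (h₁ : f.eval a₀ ∈ I)
    (h₂ : IsUnit (Ideal.Quotient.mk I (f.derivative.eval a₀))) :
    ∃ a : R, f.IsRoot a ∧ a - a₀ ∈ I := by
  have := isAdicComplete_of_pow_eq_bot I N hN
  exact HenselianRing.is_henselian f hf a₀ h₁ h₂

/-- `a ^ n - b ^ n = (a - b) * ∑ a ^ i b ^ (n - 1 - i)` and the second factor is a unit when
`a - b` is nilpotent and `n`, `b` are units. -/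
theorem eq_of_pow_eq_of_isNilpotent_sub {a b : R} {n : ℕ} (hn : IsUnit (n : R)) (hb : IsUnit b)
    (hab : IsNilpotent (a - b)) (h : a ^ n = b ^ n) : a = b := by
  have hgeom : (∑ i ∈ Finset.range n, a ^ i * b ^ (n - 1 - i)) * (a - b) = a ^ n - b ^ n :=
    Commute.geom_sum₂_mul (Commute.all a b) n
  rw [h, sub_self] at hgeom
  -- the geometric sum is `n * b ^ (n - 1)` plus a multiple of `a - b`
  have hunit : IsUnit (∑ i ∈ Finset.range n, a ^ i * b ^ (n - 1 - i)) := by
    have hdecomp : ∃ c : R, (∑ i ∈ Finset.range n, a ^ i * b ^ (n - 1 - i)) =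
        (n : R) * b ^ (n - 1) + c * (a - b) := by
      have key : ∀ i ∈ Finset.range n, ∃ c : R, a ^ i * b ^ (n - 1 - i) =
          b ^ (n - 1) + c * (a - b) := by
        intro i hi
        have hi' : i ≤ n - 1 := by
          have := Finset.mem_range.mp hi
          omega
        obtain ⟨d, hd⟩ : ∃ d : R, a ^ i = b ^ i + d * (a - b) := by
          have := sub_dvd_pow_sub_pow a b i
          obtain ⟨d, hd⟩ := this
          exact ⟨d, by rw [mul_comm d, ← hd]; ring⟩
        refine ⟨d * b ^ (n - 1 - i), ?_⟩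
        rw [hd]
        have : b ^ i * b ^ (n - 1 - i) = b ^ (n - 1) := by
          rw [← pow_add]; congr 1; omega
        calc (b ^ i + d * (a - b)) * b ^ (n - 1 - i)
            = b ^ i * b ^ (n - 1 - i) + d * b ^ (n - 1 - i) * (a - b) := by ring
          _ = b ^ (n - 1) + d * b ^ (n - 1 - i) * (a - b) := by rw [this]
      choose! c hc using key
      refine ⟨∑ i ∈ Finset.range n, c i, ?_⟩
      rw [Finset.sum_congr rfl hc, Finset.sum_add_distrib, Finset.sum_const, Finset.card_range,
        Finset.sum_mul, nsmul_eq_mul]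
    obtain ⟨c, hc⟩ := hdecomp
    rw [hc]
    have hu : IsUnit ((n : R) * b ^ (n - 1)) := hn.mul (hb.pow _)
    have hnil : IsNilpotent (c * (a - b)) := (Commute.all c (a - b)).isNilpotent_mul_left hab
    exact hnil.isUnit_add_left_of_commute hu (Commute.all _ _)
  have := hunit.mul_right_eq_zero.mp (by rwa [mul_comm] at hgeom)
  exact sub_eq_zero.mp this

end Fermat.Agent.S36.ZC
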