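import Mathlib
import Fermat.Agent.S36.ZC.NilHensel

/-!
# S36 / ZC (design-independent algebra), slice 4: from the reduced fibre to the thick fibres

Ring language only (no valuations).  `R` is a chart ring (or a local ring `O_W` of a vertical
valuation), `ϖ ∈ R`, and `rad(ϖ) = (Ideal.span {ϖ}).radical` is the ideal of the reduced special
fibre.  The standing hypothesis `rad(ϖ) ^ N ≤ (ϖ)` holds as soon as `R` is noetherian
(`radical_pow_le_of_isNoetherianRing`).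

* `exists_pow_sub_mem_span_pow` (HB1): `n` invertible, `v` a unit, `w₀ ^ n ≡ v` modulo `rad(ϖ)`.
  Then for every `m` there is `w` with `w ^ n ≡ v` modulo `ϖ ^ m` and `w ≡ w₀` modulo `rad(ϖ)`.
* `exists_mul_pow_sub_one_mem_span_pow` (HB1'): the same for the inverse root: `v * w ^ n ≡ 1`.
* `sub_mem_span_pow_of_pow_sub_pow_mem` (HB2): `x ^ n ≡ y ^ n` modulo `ϖ ^ m`, `x ≡ y` modulo
  `rad(ϖ)`, `y` a unit, `n` invertible  ⟹  `x ≡ y` modulo `ϖ ^ m`.
* `exists_normalised_generator` (HB3): in a field `F ⊇ R`: if `t` is a local generator,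
  `f * t ^ n = v` is a unit of `R` and `v` is an `n`-th power modulo `rad(ϖ)`, then for every `m`
  there is `γ = w • t` (`w ∈ R` a unit modulo `rad(ϖ)`) with `f * γ ^ n ≡ 1` modulo `ϖ ^ m R`.
* `smul_sub_mem_of_normalised` (HB2 in `F`): two normalised generators with the same reduction
  agree modulo `ϖ ^ m`.
-/

set_option autoImplicit false

namespace Fermat.Agent.S36.ZC

open Polynomial

variable {R : Type*} [CommRing R]

/-- in a noetherian ring a power of `rad(ϖ)` lies in `(ϖ)` -/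
theorem radical_pow_le_of_isNoetherianRing [IsNoetherianRing R] (ϖ : R) :
    ∃ N : ℕ, (Ideal.span {ϖ}).radical ^ N ≤ Ideal.span {ϖ} :=
  Ideal.exists_radical_pow_le_of_fg _ (IsNoetherian.noetherian _)

theorem span_pow_le_radical (ϖ : R) {m : ℕ} (hm : 0 < m) :
    Ideal.span {ϖ ^ m} ≤ (Ideal.span {ϖ}).radical := by
  rw [Ideal.span_singleton_le_iff_mem]
  exact Ideal.le_radical (Ideal.pow_mem_of_mem _ (Ideal.mem_span_singleton_self ϖ) m hm)

/-- the image of `rad(ϖ)` in `R ⧸ (ϖ ^ m)` is nilpotent -/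
theorem map_radical_pow_eq_bot (ϖ : R) (N : ℕ)
    (hN : (Ideal.span {ϖ}).radical ^ N ≤ Ideal.span {ϖ}) (m : ℕ) :
    ((Ideal.span {ϖ}).radical.map (Ideal.Quotient.mk (Ideal.span {ϖ ^ m}))) ^ (N * m) = ⊥ := by
  rw [← Ideal.map_pow, pow_mul, eq_bot_iff]
  refine le_trans (Ideal.map_mono (Ideal.pow_right_mono hN m)) ?_
  rw [Ideal.span_singleton_pow, Ideal.map_le_iff_le_comap]
  intro x hx
  rw [Ideal.mem_comap, Ideal.mem_bot, Ideal.Quotient.eq_zero_iff_mem]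
  exact hx

/-- **(HB1)** lifting an `n`-th root of a unit from the reduced fibre to the `m`-th thick fibre. -/
theorem exists_pow_sub_mem_span_pow (ϖ : R) (N : ℕ)
    (hN : (Ideal.span {ϖ}).radical ^ N ≤ Ideal.span {ϖ})
    {n : ℕ} (hn0 : n ≠ 0) (hn : IsUnit (n : R)) {v : R} (hv : IsUnit v) (w₀ : R)
    (hw₀ : w₀ ^ n - v ∈ (Ideal.span {ϖ}).radical) (m : ℕ) :
    ∃ w : R, w ^ n - v ∈ Ideal.span {ϖ ^ m} ∧ w - w₀ ∈ (Ideal.span {ϖ}).radical := by
  rcases Nat.eq_zero_or_pos m with rfl | hm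
  · refine ⟨w₀, ?_, by simp⟩
    rw [pow_zero, Ideal.span_singleton_one]
    exact Submodule.mem_top
  set J : Ideal R := Ideal.span {ϖ ^ m} with hJ
  set mk := Ideal.Quotient.mk J with hmk
  set I : Ideal (R ⧸ J) := (Ideal.span {ϖ}).radical.map mk with hI
  have hnil : I ^ (N * m) = ⊥ := map_radical_pow_eq_bot ϖ N hN m
  -- `mk w₀` is a unit modulo `I`
  have hw₀u : IsUnit (Ideal.Quotient.mk I (mk w₀)) := by
    have h1 : Ideal.Quotient.mk I (mk w₀) ^ n = Ideal.Quotient.mk I (mk v) := by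
      rw [← map_pow, ← map_pow, ← sub_eq_zero, ← map_sub, ← map_sub,
        Ideal.Quotient.eq_zero_iff_mem]
      exact Ideal.mem_map_of_mem _ hw₀
    have h2 : IsUnit (Ideal.Quotient.mk I (mk w₀) ^ n) := by
      rw [h1]
      exact (hv.map mk).map _
    exact (isUnit_pow_iff hn0).mp h2
  obtain ⟨a, ha, haI⟩ : ∃ a : R ⧸ J, (X ^ n - C (mk v) : (R ⧸ J)[X]).IsRoot a ∧ a - mk w₀ ∈ I := by
    refine exists_root_of_pow_eq_bot I (N * m) hnil _ (monic_X_pow_sub_C _ hn0) (mk w₀) ?_ ?_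
    · have : (X ^ n - C (mk v) : (R ⧸ J)[X]).eval (mk w₀) = mk (w₀ ^ n - v) := by
        simp
      rw [this]
      exact Ideal.mem_map_of_mem _ hw₀
    · have : (X ^ n - C (mk v) : (R ⧸ J)[X]).derivative.eval (mk w₀) =
          (mk (n : R)) * (mk w₀) ^ (n - 1) := by
        rw [derivative_sub, derivative_C, sub_zero, derivative_X_pow]
        simp
      rw [this, map_mul, map_pow]
      exact ((hn.map mk).map _).mul (hw₀u.pow _)
  obtain ⟨w, rfl⟩ := Ideal.Quotient.mk_surjective a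
  refine ⟨w, ?_, ?_⟩
  · rw [← Ideal.Quotient.eq_zero_iff_mem, map_sub, map_pow]
    have := ha
    simpa [IsRoot] using this
  · rw [← map_sub] at haI
    obtain ⟨r, hr, hrw⟩ := (Ideal.mem_map_iff_of_surjective mk Ideal.Quotient.mk_surjective).mp haI
    have h1 : w - w₀ - r ∈ J := by
      rw [← Ideal.Quotient.eq_zero_iff_mem, map_sub, ← hmk, hrw, sub_self]
    have h2 : w - w₀ - r ∈ (Ideal.span {ϖ}).radical := span_pow_le_radical ϖ hm h1
    have := Ideal.add_mem _ h2 hr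
    simpa using this

/-- **(HB1')** the inverse form: `v * w ^ n ≡ 1` modulo `ϖ ^ m`. -/
theorem exists_mul_pow_sub_one_mem_span_pow (ϖ : R) (N : ℕ)
    (hN : (Ideal.span {ϖ}).radical ^ N ≤ Ideal.span {ϖ})
    {n : ℕ} (hn0 : n ≠ 0) (hn : IsUnit (n : R)) {v : R} (hv : IsUnit v) (w₀ : R)
    (hw₀ : v * w₀ ^ n - 1 ∈ (Ideal.span {ϖ}).radical) (m : ℕ) :
    ∃ w : R, v * w ^ n - 1 ∈ Ideal.span {ϖ ^ m} ∧ w - w₀ ∈ (Ideal.span {ϖ}).radical := by
  obtain ⟨u, rfl⟩ := hv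
  have h0 : w₀ ^ n - ((u⁻¹ : Rˣ) : R) ∈ (Ideal.span {ϖ}).radical := by
    have := Ideal.mul_mem_left _ ((u⁻¹ : Rˣ) : R) hw₀
    have h1 : ((u⁻¹ : Rˣ) : R) * ((u : R) * w₀ ^ n - 1) = w₀ ^ n - ((u⁻¹ : Rˣ) : R) := by
      rw [mul_sub, ← mul_assoc, Units.inv_mul, one_mul, mul_one]
    rwa [h1] at this
  obtain ⟨w, hw, hww₀⟩ := exists_pow_sub_mem_span_pow ϖ N hN hn0 hn (u⁻¹).isUnit w₀ h0 m
  refine ⟨w, ?_, hww₀⟩
  have := Ideal.mul_mem_left _ (u : R) hw
  have h1 : (u : R) * (w ^ n - ((u⁻¹ : Rˣ) : R)) = (u : R) * w ^ n - 1 := by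
    rw [mul_sub, Units.mul_inv]
  rwa [h1] at this

/-- **(HB2)** uniqueness on the thick fibre: `x ^ n ≡ y ^ n` modulo `ϖ ^ m` and `x ≡ y` on the
reduced fibre imply `x ≡ y` modulo `ϖ ^ m` (`n` invertible, `y` a unit). -/
theorem sub_mem_span_pow_of_pow_sub_pow_mem (ϖ : R) {n : ℕ} (hn : IsUnit (n : R)) {x y : R}
    (hy : IsUnit y) (m : ℕ) (hxy : x ^ n - y ^ n ∈ Ideal.span {ϖ ^ m})
    (hrad : x - y ∈ (Ideal.span {ϖ}).radical) : x - y ∈ Ideal.span {ϖ ^ m} := by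
  set J : Ideal R := Ideal.span {ϖ ^ m} with hJ
  set mk := Ideal.Quotient.mk J with hmk
  have hnilp : IsNilpotent (mk x - mk y) := by
    obtain ⟨k, hk⟩ := hrad
    refine ⟨k * m, ?_⟩
    rw [← map_sub, ← map_pow, Ideal.Quotient.eq_zero_iff_mem, pow_mul]
    obtain ⟨c, hc⟩ := Ideal.mem_span_singleton'.mp hk
    rw [← hc, mul_pow]
    exact Ideal.mul_mem_left _ _ (Ideal.mem_span_singleton_self _)
  have heq : mk x ^ n = mk y ^ n := by
    rw [← sub_eq_zero, ← map_pow, ← map_pow, ← map_sub, Ideal.Quotient.eq_zero_iff_mem]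
    exact hxy
  have hn' : IsUnit ((n : ℕ) : R ⧸ J) := by
    have := hn.map mk
    simpa using this
  have := eq_of_pow_eq_of_isNilpotent_sub hn' (hy.map mk) hnilp heq
  rw [← Ideal.Quotient.eq_zero_iff_mem, map_sub, ← hmk, this, sub_self]

/-- (HB2) with `y = 1` -/
theorem sub_one_mem_span_pow (ϖ : R) {n : ℕ} (hn : IsUnit (n : R)) {x : R} (m : ℕ)
    (hx : x ^ n - 1 ∈ Ideal.span {ϖ ^ m}) (hrad : x - 1 ∈ (Ideal.span {ϖ}).radical) :
    x - 1 ∈ Ideal.span {ϖ ^ m} := by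
  refine sub_mem_span_pow_of_pow_sub_pow_mem ϖ hn isUnit_one m ?_ hrad
  rwa [one_pow]

section Field

variable {F : Type*} [Field F] [Algebra R F]

/-- **(HB3)** normalised local generators on the thick fibres.  `t ∈ F` is a local generator of the
rank-one module, `f * t ^ n = v` is a unit of the chart ring `R`, and `v⁻¹` is the `n`-th power
of `w₀` on the reduced fibre.  Then for every `m` there is a multiplier `w ∈ R`, congruent to `w₀` on
the reduced fibre, such that `γ = w • t` satisfies `f * γ ^ n ≡ 1` modulo `ϖ ^ m R`. -/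
theorem exists_normalised_generator (ϖ : R) (N : ℕ)
    (hN : (Ideal.span {ϖ}).radical ^ N ≤ Ideal.span {ϖ})
    {n : ℕ} (hn0 : n ≠ 0) (hn : IsUnit (n : R)) {v : R} (hv : IsUnit v) (f t : F)
    (hft : f * t ^ n = algebraMap R F v) (w₀ : R)
    (hw₀ : v * w₀ ^ n - 1 ∈ (Ideal.span {ϖ}).radical) (m : ℕ) :
    ∃ w : R, w - w₀ ∈ (Ideal.span {ϖ}).radical ∧
      ∃ c : R, f * (w • t) ^ n - 1 = algebraMap R F (ϖ ^ m * c) := by
  obtain ⟨w, hw, hww₀⟩ := exists_mul_pow_sub_one_mem_span_pow ϖ N hN hn0 hn hv w₀ hw₀ m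
  obtain ⟨c, hc⟩ := Ideal.mem_span_singleton'.mp hw
  refine ⟨w, hww₀, c, ?_⟩
  rw [mul_comm (ϖ ^ m) c, hc, Algebra.smul_def, mul_pow, mul_left_comm, hft, map_sub, map_mul,
    map_pow, map_one, mul_comm]

/-- **(HB2) in `F`.**  Two normalised elements `γ = x • γ'` (`x ∈ R`) with `f * γ ^ n ≡ 1` and
`f * γ' ^ n ≡ 1` modulo `ϖ ^ m R`, `ϖ` in the Jacobson radical of `R` (e.g. `R = O_W`), `R → F`
injective, and `x ≡ 1` on the reduced fibre: then `x ≡ 1` modulo `ϖ ^ m`. -/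
theorem sub_one_mem_of_normalised (hinj : Function.Injective (algebraMap R F)) (ϖ : R)
    (hjac : ϖ ∈ Ideal.jacobson (⊥ : Ideal R))
    {n : ℕ} (hn : IsUnit (n : R)) (f γ' : F) (x : R) {m : ℕ} (hm : 0 < m)
    (c c' : R) (h : f * (x • γ') ^ n - 1 = algebraMap R F (ϖ ^ m * c))
    (h' : f * γ' ^ n - 1 = algebraMap R F (ϖ ^ m * c'))
    (hrad : x - 1 ∈ (Ideal.span {ϖ}).radical) : x - 1 ∈ Ideal.span {ϖ ^ m} := by
  refine sub_one_mem_span_pow ϖ hn m ?_ hrad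
  -- `x ^ n * (1 + ϖ ^ m c') = 1 + ϖ ^ m c` in `R`
  have h1 : f * γ' ^ n = algebraMap R F (1 + ϖ ^ m * c') := by
    rw [map_add, map_one, ← h']; ring
  have h2 : algebraMap R F (x ^ n * (1 + ϖ ^ m * c')) = algebraMap R F (1 + ϖ ^ m * c) := by
    rw [map_mul, ← h1, map_add, map_one, ← h, Algebra.smul_def, mul_pow, map_pow]
    ring
  have h3 : x ^ n * (1 + ϖ ^ m * c') = 1 + ϖ ^ m * c := hinj h2
  have hu : IsUnit (1 + ϖ ^ m * c') := by
    have hmem : ϖ ^ m * c' ∈ Ideal.jacobson (⊥ : Ideal R) :=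
      Ideal.mul_mem_right _ _ (Ideal.pow_mem_of_mem _ hjac m hm)
    have := (Ideal.mem_jacobson_bot.mp hmem) 1
    simpa [add_comm] using this
  obtain ⟨u, hu⟩ := hu
  have h4 : x ^ n - 1 = ϖ ^ m * ((c - c') * ((u⁻¹ : Rˣ) : R)) := by
    have h5 : x ^ n = (1 + ϖ ^ m * c) * ((u⁻¹ : Rˣ) : R) := by
      rw [← h3, ← hu, mul_assoc, Units.mul_inv, mul_one]
    have h6 : (1 : R) = (1 + ϖ ^ m * c') * ((u⁻¹ : Rˣ) : R) := by
      rw [← hu, Units.mul_inv]
    calc x ^ n - 1 = (1 + ϖ ^ m * c) * ((u⁻¹ : Rˣ) : R) - (1 + ϖ ^ m * c') * ((u⁻¹ : Rˣ) : R) := by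
          rw [← h5, ← h6]
      _ = ϖ ^ m * ((c - c') * ((u⁻¹ : Rˣ) : R)) := by ring
  rw [h4]
  exact Ideal.mul_mem_right _ _ (Ideal.mem_span_singleton_self _)

end Field

end Fermat.Agent.S36.ZC
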