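import Mathlib
import Fermat.Agent.S36.ZC.NilHensel

/-!
# S36 / ZC (design-independent algebra), slice 2: the VALUES lemma

"Trivial value-gluing ⟹ the `n`-th root lives on the (non-normal) curve."

* `exists_algebraMap_eq_of_residues` (artinian form): `R → S` artinian rings, `f ∈ Rˣ`, `n` invertible,
  `h ∈ S` with `h ^ n = f`; if for every maximal ideal `m` of `R` there is `c m ∈ R` with
  `c m ^ n ≡ f (mod m)` and `h ≡ c m` modulo every maximal ideal of `S` above `m`, then `h` comes
  from `R`.  (Hensel in `R` for the nilpotent Jacobson radical + uniqueness of `n`-th roots up to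
  nilpotents in `S`.)
* `mem_range_of_conductor` (conductor square): if `I ⊆ B` is an ideal with `I · Bt ⊆ B`
  (an ideal inside the conductor) then `h ∈ Bt` lies in `B` as soon as it does modulo `I · Bt`.
* `mem_range_of_values` : the combination, in the shape used for the reduced special fibre
  `B ⊆ Bt = ∏ (integral closures of the components)`.
-/

set_option autoImplicit false

namespace Fermat.Agent.S36.ZC

open Polynomial

section Artinian

variable {R S : Type*} [CommRing R] [CommRing S] [Algebra R S] [IsArtinianRing R] [IsArtinianRing S]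

theorem exists_algebraMap_eq_of_residues {n : ℕ} (hn0 : n ≠ 0) (hn : IsUnit (n : R))
    {f : R} (hf : IsUnit f) {h : S} (hh : h ^ n = algebraMap R S f)
    (c : MaximalSpectrum R → R)
    (hc : ∀ m : MaximalSpectrum R, c m ^ n - f ∈ m.asIdeal)
    (hres : ∀ P : Ideal S, P.IsMaximal → ∀ m : MaximalSpectrum R,
      m.asIdeal ≤ P.comap (algebraMap R S) → h - algebraMap R S (c m) ∈ P) :
    ∃ r : R, algebraMap R S r = h := by
  classical
  -- the Jacobson radical of `R` is nilpotent
  obtain ⟨N, hN⟩ : ∃ N : ℕ, (Ideal.jacobson (⊥ : Ideal R)) ^ N = ⊥ := by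
    obtain ⟨N, hN⟩ := IsArtinianRing.isNilpotent_jacobson_bot (R := R)
    exact ⟨N, by simpa using hN⟩
  -- CRT: one `c0` congruent to all `c m`
  obtain ⟨c0, hc0⟩ : ∃ c0 : R, ∀ m : MaximalSpectrum R, c0 - c m ∈ m.asIdeal := by
    have hcop : Pairwise (Function.onFun IsCoprime fun m : MaximalSpectrum R => m.asIdeal) := by
      intro m m' hne
      have := m.isMaximal
      have := m'.isMaximal
      exact Ideal.isCoprime_of_isMaximal (fun h => hne (MaximalSpectrum.ext h))
    have : Fintype (MaximalSpectrum R) := Fintype.ofFinite _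
    exact Ideal.exists_forall_sub_mem_ideal hcop c
  have hmem : ∀ m : MaximalSpectrum R, c0 ^ n - f ∈ m.asIdeal := by
    intro m
    have h1 : c0 ^ n - c m ^ n ∈ m.asIdeal :=
      Ideal.mem_of_dvd _ (sub_dvd_pow_sub_pow c0 (c m) n) (hc0 m)
    have := Ideal.add_mem _ h1 (hc m)
    simpa using this
  have hJ : ∀ x : R, (∀ m : MaximalSpectrum R, x ∈ m.asIdeal) → x ∈ Ideal.jacobson (⊥ : Ideal R) := by
    intro x hx
    rw [Ideal.jacobson, Ideal.mem_sInf]
    rintro J ⟨-, hJ⟩
    exact hx ⟨J, hJ⟩
  -- `c0` is a unit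
  have hc0u : IsUnit c0 := by
    by_contra hnu
    obtain ⟨J, hJmax, hJmem⟩ := exists_max_ideal_of_mem_nonunits (mem_nonunits_iff.mpr hnu)
    have h1 : c0 ^ n ∈ J := Ideal.pow_mem_of_mem J hJmem n (Nat.pos_of_ne_zero hn0)
    have h2 : f ∈ J := by
      have := J.sub_mem h1 (hmem ⟨J, hJmax⟩)
      simpa using this
    exact hJmax.ne_top (Ideal.eq_top_of_isUnit_mem _ h2 hf)
  -- Hensel
  obtain ⟨r, hr, hrc⟩ : ∃ r : R, (X ^ n - C f : R[X]).IsRoot r ∧
      r - c0 ∈ Ideal.jacobson (⊥ : Ideal R) := by
    refine exists_root_of_pow_eq_bot _ N hN (X ^ n - C f) (monic_X_pow_sub_C f hn0) c0 ?_ ?_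
    · simpa using hJ _ hmem
    · have : (X ^ n - C f : R[X]).derivative.eval c0 = (n : R) * c0 ^ (n - 1) := by
        rw [derivative_sub, derivative_C, sub_zero, derivative_X_pow]
        simp
      rw [this]
      exact (hn.mul (hc0u.pow _)).map _
  have hrn : r ^ n = f := by
    have := hr
    simpa [IsRoot, sub_eq_zero] using this
  -- compare with `h` in `S`
  have hSnil : ∀ x : S, (∀ P : Ideal S, P.IsMaximal → x ∈ P) → IsNilpotent x := by
    intro x hx
    obtain ⟨N', hN'⟩ := IsArtinianRing.isNilpotent_jacobson_bot (R := S)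
    refine ⟨N', ?_⟩
    have hxJ : x ∈ Ideal.jacobson (⊥ : Ideal S) := by
      rw [Ideal.jacobson, Ideal.mem_sInf]
      rintro J ⟨-, hJ⟩
      exact hx J hJ
    have := Ideal.pow_mem_pow hxJ N'
    rw [hN'] at this
    simpa using this
  have hnil : IsNilpotent (algebraMap R S r - h) := by
    refine hSnil _ fun P hP => ?_
    have := hP.isPrime
    have : (P.comap (algebraMap R S)).IsPrime := Ideal.comap_isPrime _ _
    have hmax : (P.comap (algebraMap R S)).IsMaximal := IsArtinianRing.isMaximal_of_isPrime _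
    set m : MaximalSpectrum R := ⟨P.comap (algebraMap R S), hmax⟩ with hm
    have h1 : h - algebraMap R S (c m) ∈ P := hres P hP m le_rfl
    have h2 : r - c m ∈ m.asIdeal := by
      have ha : r - c0 ∈ m.asIdeal := by
        have := hrc
        rw [Ideal.jacobson, Ideal.mem_sInf] at this
        exact this ⟨bot_le, hmax⟩
      have := Ideal.add_mem _ ha (hc0 m)
      simpa using this
    have h3 : algebraMap R S (r - c m) ∈ P := h2
    have : algebraMap R S r - h = algebraMap R S (r - c m) - (h - algebraMap R S (c m)) := by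
      rw [map_sub]; ring
    rw [this]
    exact P.sub_mem h3 h1
  have hhu : IsUnit h := by
    have : IsUnit (h ^ n) := by rw [hh]; exact hf.map _
    exact (isUnit_pow_iff hn0).mp this
  refine ⟨r, eq_of_pow_eq_of_isNilpotent_sub (n := n) ?_ hhu hnil ?_⟩
  · have := hn.map (algebraMap R S)
    simpa using this
  · rw [← map_pow, hrn, hh]

end Artinian

section Conductor

variable {B Bt : Type*} [CommRing B] [CommRing Bt] [Algebra B Bt]

/-- conductor square: if `I · Bt ⊆ B`, membership in `B` can be tested modulo `I · Bt`. -/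
theorem mem_range_of_conductor (I : Ideal B)
    (hI : ∀ b ∈ I, ∀ x : Bt, x * algebraMap B Bt b ∈ (algebraMap B Bt).range)
    (h : Bt) (b : B) (hb : h - algebraMap B Bt b ∈ I.map (algebraMap B Bt)) :
    h ∈ (algebraMap B Bt).range := by
  have key : ∀ y ∈ I.map (algebraMap B Bt), ∀ x : Bt, x * y ∈ (algebraMap B Bt).range := by
    intro y hy
    refine Submodule.span_induction (p := fun y _ => ∀ x : Bt, x * y ∈ (algebraMap B Bt).range)
      ?_ ?_ ?_ ?_ hy
    · rintro y ⟨b, hb, rfl⟩ x
      exact hI b hb x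
    · intro x; simp
    · intro y z _ _ hy hz x
      rw [mul_add]
      exact Subring.add_mem _ (hy x) (hz x)
    · intro a y _ hy x
      rw [smul_eq_mul, ← mul_assoc]
      exact hy (x * a)
  have h1 : h - algebraMap B Bt b ∈ (algebraMap B Bt).range := by
    simpa using key _ hb 1
  have h2 : algebraMap B Bt b ∈ (algebraMap B Bt).range := ⟨b, rfl⟩
  have := Subring.add_mem _ h1 h2
  simpa using this

end Conductor

section Values

variable {B Bt : Type*} [CommRing B] [CommRing Bt] [Algebra B Bt]

/-- **The VALUES lemma.**  `B ⊆ Bt`, `I` an ideal of `B` inside the conductor with `B ⧸ I` and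
`Bt ⧸ I Bt` artinian.  Let `f ∈ Bˣ`, `n` invertible, `h ∈ Bt` with `h ^ n = f`.  If for every maximal
ideal `m ⊇ I` of `B` the element `h` has one and the same residue `c m` (coming from `B`) at all
maximal ideals of `Bt` above `m`, then `h ∈ B`. -/
theorem mem_range_of_values (I : Ideal B)
    (hI : ∀ b ∈ I, ∀ x : Bt, x * algebraMap B Bt b ∈ (algebraMap B Bt).range)
    [IsArtinianRing (B ⧸ I)] [IsArtinianRing (Bt ⧸ I.map (algebraMap B Bt))]
    {n : ℕ} (hn0 : n ≠ 0) (hn : IsUnit (n : B)) {f : B} (hf : IsUnit f) {h : Bt}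
    (hh : h ^ n = algebraMap B Bt f)
    (c : Ideal B → B)
    (hc : ∀ m : Ideal B, m.IsMaximal → I ≤ m → c m ^ n - f ∈ m)
    (hres : ∀ P : Ideal Bt, P.IsMaximal → ∀ m : Ideal B, m.IsMaximal → I ≤ m →
      m ≤ P.comap (algebraMap B Bt) → h - algebraMap B Bt (c m) ∈ P) :
    h ∈ (algebraMap B Bt).range := by
  classical
  set J : Ideal Bt := I.map (algebraMap B Bt) with hJ
  -- maximal ideals of `B ⧸ I` ↔ maximal ideals of `B` containing `I`
  have hmaxB : ∀ m : MaximalSpectrum (B ⧸ I),
      (m.asIdeal.comap (Ideal.Quotient.mk I)).IsMaximal ∧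
        I ≤ m.asIdeal.comap (Ideal.Quotient.mk I) := by
    intro m
    have := m.isMaximal
    refine ⟨Ideal.comap_isMaximal_of_surjective _ Ideal.Quotient.mk_surjective, ?_⟩
    intro x hx
    rw [Ideal.mem_comap, Ideal.Quotient.eq_zero_iff_mem.mpr hx]
    exact Ideal.zero_mem _
  obtain ⟨r, hr⟩ : ∃ r : B ⧸ I, algebraMap (B ⧸ I) (Bt ⧸ J) r = Ideal.Quotient.mk J h := by
    refine exists_algebraMap_eq_of_residues (n := n) (f := Ideal.Quotient.mk I f) hn0 ?_ (hf.map _)
      ?_ (fun m => Ideal.Quotient.mk I (c (m.asIdeal.comap (Ideal.Quotient.mk I)))) ?_ ?_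
    · have := hn.map (Ideal.Quotient.mk I)
      simpa using this
    · rw [← map_pow, hh]
      rfl
    · intro m
      have := hc _ (hmaxB m).1 (hmaxB m).2
      rw [Ideal.mem_comap, map_sub, map_pow] at this
      exact this
    · intro P hP m hmP
      -- pull `P` back to `Bt`
      have := hP
      have hP' : (P.comap (Ideal.Quotient.mk J)).IsMaximal :=
        Ideal.comap_isMaximal_of_surjective _ Ideal.Quotient.mk_surjective
      have hle : m.asIdeal.comap (Ideal.Quotient.mk I) ≤
          (P.comap (Ideal.Quotient.mk J)).comap (algebraMap B Bt) := by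
        intro x hx
        rw [Ideal.mem_comap] at hx
        have := hmP hx
        rw [Ideal.mem_comap] at this
        rw [Ideal.mem_comap, Ideal.mem_comap]
        exact this
      have := hres _ hP' _ (hmaxB m).1 (hmaxB m).2 hle
      rw [Ideal.mem_comap, map_sub] at this
      exact this
  obtain ⟨b, rfl⟩ := Ideal.Quotient.mk_surjective r
  refine mem_range_of_conductor I hI h b ?_
  rw [← Ideal.Quotient.eq_zero_iff_mem, map_sub, sub_eq_zero, ← hr]
  rfl

end Values

end Fermat.Agent.S36.ZC
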