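import Mathlib
import Fermat.Agent.S36.ZC.Values
import Fermat.Agent.S36.ZC.HenselBridge

/-!
# S36 / ZC (design-independent algebra), slice 5: the chart input of the soft core

The composition VALUES + (HB1'): at a chart ring (or a local ring `O_x` of the normal model) `R`
with reduced special fibre `B = R / rad(ϖ)` and normalisation `B → Bt`
(`Bt = ∏` of the coordinate rings of the branches), let `v ∈ Rˣ` (`v = f * t ^ n` for a local
generator `t`) and let `h ∈ Bt` be an inverse `n`-th root of `v` on the branches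
(`h = (red_W (γ_W / t))_W` for the generic normalisations `γ_W` with `red_W (f γ_W ^ n) = 1`).
If over every singular point of `B` the values of `h` on the branches through the point coincide,
then for every `m` there is `w ∈ R` with `red w = h` on every branch and `v * w ^ n ≡ 1` modulo
`ϖ ^ m`; so `γ = w • t` is a local generator normalised modulo `ϖ ^ m`.

The conductor is only used through ONE element `s ∈ B` with `s • Bt ⊆ B` and `B / (s)` artinian.

* `isArtinianRing_quotient_map_span` : `Bt / s Bt` is artinian when `Bt` is a finite `B`-module.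
* `exists_lift_of_values` : the composition.
* `exists_normalised_generator_of_values` : the same in a field `F ⊇ R`.
-/

set_option autoImplicit false

namespace Fermat.Agent.S36.ZC

section

variable {B Bt : Type*} [CommRing B] [CommRing Bt] [Algebra B Bt]

theorem isArtinianRing_quotient_map_span [Module.Finite B Bt] (s : B)
    [IsArtinianRing (B ⧸ Ideal.span {s})] :
    IsArtinianRing (Bt ⧸ (Ideal.span {s}).map (algebraMap B Bt)) := by
  have h1 : Module.Finite B (Bt ⧸ (Ideal.span {s}).map (algebraMap B Bt)) :=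
    Module.Finite.of_surjective
      (Ideal.Quotient.mkₐ B ((Ideal.span {s}).map (algebraMap B Bt))).toLinearMap
      (Ideal.Quotient.mkₐ_surjective B _)
  have h2 : Module.Finite (B ⧸ Ideal.span {s})
      (Bt ⧸ (Ideal.span {s}).map (algebraMap B Bt)) :=
    Module.Finite.of_restrictScalars_finite B _ _
  exact IsArtinianRing.of_finite (B ⧸ Ideal.span {s}) _

end

section

variable {R B Bt : Type*} [CommRing R] [CommRing B] [CommRing Bt] [Algebra B Bt]

/-- **Chart input of the soft core** (VALUES + Hensel through the nilpotents). -/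
theorem exists_lift_of_values (ϖ : R) (N : ℕ)
    (hN : (Ideal.span {ϖ}).radical ^ N ≤ Ideal.span {ϖ})
    (red : R →+* B) (hsurj : Function.Surjective red)
    (hker : RingHom.ker red = (Ideal.span {ϖ}).radical)
    [Module.Finite B Bt] (hinj : Function.Injective (algebraMap B Bt))
    (s : B) (hs : ∀ x : Bt, x * algebraMap B Bt s ∈ (algebraMap B Bt).range)
    [IsArtinianRing (B ⧸ Ideal.span {s})]
    {n : ℕ} (hn0 : n ≠ 0) (hn : IsUnit (n : R)) {v : R} (hv : IsUnit v)
    {h : Bt} (hh : algebraMap B Bt (red v) * h ^ n = 1)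
    (hval : ∀ m : Ideal B, m.IsMaximal → s ∈ m → ∃ c : B, ∀ P : Ideal Bt, P.IsMaximal →
      m ≤ P.comap (algebraMap B Bt) → h - algebraMap B Bt c ∈ P)
    (m : ℕ) :
    ∃ w : R, algebraMap B Bt (red w) = h ∧ v * w ^ n - 1 ∈ Ideal.span {ϖ ^ m} := by
  classical
  have : IsArtinianRing (Bt ⧸ (Ideal.span {s}).map (algebraMap B Bt)) :=
    isArtinianRing_quotient_map_span s
  have : Algebra.IsIntegral B Bt := Algebra.IsIntegral.of_finite B Bt
  -- the unit `f = (red v)⁻¹` of `B`
  obtain ⟨u, hu⟩ := hv.map red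
  set f : B := ((u⁻¹ : Bˣ) : B) with hf
  have hfu : IsUnit f := (u⁻¹).isUnit
  have hvf : red v * f = 1 := by rw [← hu, hf, Units.mul_inv]
  have hhf : h ^ n = algebraMap B Bt f := by
    have h1 : algebraMap B Bt f * (algebraMap B Bt (red v) * h ^ n) = algebraMap B Bt f := by
      rw [hh, mul_one]
    rw [← mul_assoc, ← map_mul, mul_comm f, hvf, map_one, one_mul] at h1
    exact h1
  -- the values
  have hmemI : ∀ m : Ideal B, Ideal.span {s} ≤ m ↔ s ∈ m := fun m =>
    Ideal.span_singleton_le_iff_mem (I := m)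
  let c : Ideal B → B := fun m =>
    if hm : m.IsMaximal ∧ s ∈ m then (hval m hm.1 hm.2).choose else 0
  have hcspec : ∀ m : Ideal B, m.IsMaximal → s ∈ m → ∀ P : Ideal Bt, P.IsMaximal →
      m ≤ P.comap (algebraMap B Bt) → h - algebraMap B Bt (c m) ∈ P := by
    intro m hm hsm
    have : c m = (hval m hm hsm).choose := dif_pos ⟨hm, hsm⟩
    rw [this]
    exact (hval m hm hsm).choose_spec
  have hnB : IsUnit ((n : ℕ) : B) := by
    have := hn.map red
    simpa using this
  obtain ⟨b, hb⟩ : h ∈ (algebraMap B Bt).range := by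
    refine mem_range_of_values (Ideal.span {s}) ?_ hn0 hnB hfu hhf c ?_ ?_
    · intro b hb x
      obtain ⟨b', rfl⟩ := Ideal.mem_span_singleton'.mp hb
      have := hs (x * algebraMap B Bt b')
      rwa [mul_assoc, ← map_mul] at this
    · intro m hm hIm
      have hsm : s ∈ m := (hmemI m).mp hIm
      -- lying over
      obtain ⟨P, hP, hPm⟩ := Ideal.exists_ideal_over_maximal_of_isIntegral (S := Bt) m
        (by
          rw [(RingHom.injective_iff_ker_eq_bot _).mp hinj]
          exact bot_le)
      have h1 : h - algebraMap B Bt (c m) ∈ P := hcspec m hm hsm P hP (le_of_eq hPm.symm)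
      have h2 : h ^ n - algebraMap B Bt (c m) ^ n ∈ P :=
        Ideal.mem_of_dvd _ (sub_dvd_pow_sub_pow _ _ n) h1
      rw [hhf, ← map_pow, ← map_sub] at h2
      have h3 : f - c m ^ n ∈ P.comap (algebraMap B Bt) := h2
      rw [hPm] at h3
      have := m.neg_mem h3
      simpa using this
    · intro P hP m hm hIm hmP
      exact hcspec m hm ((hmemI m).mp hIm) P hP hmP
  obtain ⟨w₀, rfl⟩ := hsurj b
  have hw₀ : v * w₀ ^ n - 1 ∈ (Ideal.span {ϖ}).radical := by
    rw [← hker, RingHom.mem_ker]
    apply hinj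
    simp only [map_sub, map_mul, map_pow, map_one, map_zero]
    rw [hb, hh, sub_self]
  obtain ⟨w, hw, hww₀⟩ := exists_mul_pow_sub_one_mem_span_pow ϖ N hN hn0 hn hv w₀ hw₀ m
  refine ⟨w, ?_, hw⟩
  rw [← hker, RingHom.mem_ker, map_sub, sub_eq_zero] at hww₀
  rw [hww₀, hb]

/-- the same in a field `F ⊇ R`: the normalised local generator `γ = w • t`. -/
theorem exists_normalised_generator_of_values (ϖ : R) (N : ℕ)
    (hN : (Ideal.span {ϖ}).radical ^ N ≤ Ideal.span {ϖ})
    (red : R →+* B) (hsurj : Function.Surjective red)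
    (hker : RingHom.ker red = (Ideal.span {ϖ}).radical)
    [Module.Finite B Bt] (hinj : Function.Injective (algebraMap B Bt))
    (s : B) (hs : ∀ x : Bt, x * algebraMap B Bt s ∈ (algebraMap B Bt).range)
    [IsArtinianRing (B ⧸ Ideal.span {s})]
    {n : ℕ} (hn0 : n ≠ 0) (hn : IsUnit (n : R)) {v : R} (hv : IsUnit v)
    {F : Type*} [Field F] [Algebra R F] (f t : F) (hft : f * t ^ n = algebraMap R F v)
    {h : Bt} (hh : algebraMap B Bt (red v) * h ^ n = 1)
    (hval : ∀ m : Ideal B, m.IsMaximal → s ∈ m → ∃ c : B, ∀ P : Ideal Bt, P.IsMaximal →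
      m ≤ P.comap (algebraMap B Bt) → h - algebraMap B Bt c ∈ P)
    (m : ℕ) :
    ∃ w : R, algebraMap B Bt (red w) = h ∧
      ∃ c : R, f * (w • t) ^ n - 1 = algebraMap R F (ϖ ^ m * c) := by
  obtain ⟨w, hwh, hw⟩ := exists_lift_of_values ϖ N hN red hsurj hker hinj s hs hn0 hn hv hh hval m
  obtain ⟨c, hc⟩ := Ideal.mem_span_singleton'.mp hw
  refine ⟨w, hwh, c, ?_⟩
  rw [mul_comm (ϖ ^ m) c, hc, Algebra.smul_def, mul_pow, mul_left_comm, hft, map_sub, map_mul,
    map_pow, map_one, mul_comm]

end

end Fermat.Agent.S36.ZC
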