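import Mathlib
import Fermat.Agent.S36.ZC.Values
import Fermat.Agent.S36.ZC.HenselBridge
import Fermat.Agent.S36.FormalLift.Principal

/-!
# S36 / ZC (design-independent algebra), slice 7: the chart input at a multibranch point

The local form of `ChartInput.exists_lift_of_values` with NO auxiliary types: `R` is the local ring
`O_x` of the normal model at a closed point `x` of the special fibre (noetherian local), the
branches of the reduced fibre through `x` are cut out by prime elements `ℓ i` (`i : ι`, e.g. the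
three local equations of `C₂₀, C₁₁, C₀₂` at a triple point; available as soon as `O_x` is
factorial), pairwise TRANSVERSAL in the weak sense that the only prime containing `ℓ i` and `ℓ j`
(`i ≠ j`) is the maximal ideal, and `ϖ = u * ∏ ℓ i ^ e i`.

`exists_lift_of_transversal` : let `v ∈ Rˣ`, `n` invertible, and on each branch an inverse `n`-th
root `h i` of `v` (`v * h i ^ n ≡ 1` modulo `ℓ i`), all with the same value `c` at `x`.  Then for
every `m` there is `w ∈ R` with `w ≡ h i` modulo `ℓ i` for all `i` and `v * w ^ n ≡ 1` modulo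
`ϖ ^ m`.

No seminormality, no dimension theory: the conductor is replaced by the single element
`s = ∑ i, ∏ j ≠ i, ℓ j`, and `R ⧸ (∏ ℓ i, s)` is artinian because every prime containing it contains
two different `ℓ i`.

`eq_maximalIdeal_of_mem_of_mem` supplies the transversality hypothesis in the "cheap factoriality"
situation (`FormalLift/Principal.lean`): `R` a noetherian local domain, `y₀` in the maximal ideal
with `R ⧸ (y₀)` a principal ideal domain (a discrete valuation ring: the Eisenstein fibre).  Then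
two non-associated nonzero prime elements lie in no common prime except the maximal ideal.
`exists_lift_of_quotient_pid` is the combination.
-/

set_option autoImplicit false

namespace Fermat.Agent.S36.ZC

open IsLocalRing

section Artinian

variable {B Bt : Type*} [CommRing B] [CommRing Bt] [Algebra B Bt]

theorem isArtinianRing_quotient_map [Module.Finite B Bt] (I : Ideal B)
    [IsArtinianRing (B ⧸ I)] :
    IsArtinianRing (Bt ⧸ I.map (algebraMap B Bt)) := by
  have h1 : Module.Finite B (Bt ⧸ I.map (algebraMap B Bt)) :=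
    Module.Finite.of_surjective
      (Ideal.Quotient.mkₐ B (I.map (algebraMap B Bt))).toLinearMap
      (Ideal.Quotient.mkₐ_surjective B _)
  have h2 : Module.Finite (B ⧸ I) (Bt ⧸ I.map (algebraMap B Bt)) :=
    Module.Finite.of_restrictScalars_finite B _ _
  exact IsArtinianRing.of_finite (B ⧸ I) _

end Artinian

variable {R : Type*} [CommRing R]
variable {ι : Type*} [Fintype ι] [DecidableEq ι]

/-- the "conductor element" `s = ∑ i, ∏ j ≠ i, ℓ j` -/
def conductorElt (ℓ : ι → R) : R := ∑ i, ∏ j ∈ Finset.univ.erase i, ℓ j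

theorem conductorElt_sub_mem (ℓ : ι → R) (i : ι) :
    conductorElt ℓ - ∏ j ∈ Finset.univ.erase i, ℓ j ∈ Ideal.span {ℓ i} := by
  unfold conductorElt
  rw [← Finset.add_sum_erase _ _ (Finset.mem_univ i), add_sub_cancel_left]
  refine Ideal.sum_mem _ fun k hk => ?_
  have hik : i ∈ Finset.univ.erase k :=
    Finset.mem_erase.mpr ⟨(Finset.ne_of_mem_erase hk).symm, Finset.mem_univ i⟩
  exact Ideal.mem_span_singleton.mpr (Finset.dvd_prod_of_mem _ hik)

/-- every prime containing `∏ ℓ i` and `s` contains two different `ℓ i` -/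
theorem exists_ne_mem_of_prod_mem_of_conductorElt_mem (ℓ : ι → R) (P : Ideal R) [P.IsPrime]
    (hp : ∏ i, ℓ i ∈ P) (hs : conductorElt ℓ ∈ P) :
    ∃ i j, i ≠ j ∧ ℓ i ∈ P ∧ ℓ j ∈ P := by
  obtain ⟨i, -, hi⟩ := (Ideal.IsPrime.prod_mem_iff (p := P)).mp hp
  have h1 : ∏ j ∈ Finset.univ.erase i, ℓ j ∈ P := by
    have h2 : conductorElt ℓ - ∏ j ∈ Finset.univ.erase i, ℓ j ∈ P :=
      (Ideal.span_singleton_le_iff_mem (I := P)).mpr hi (conductorElt_sub_mem ℓ i)
    have := P.sub_mem hs h2
    simpa using this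
  obtain ⟨j, hj, hjP⟩ := (Ideal.IsPrime.prod_mem_iff (p := P)).mp h1
  exact ⟨i, j, (Finset.ne_of_mem_erase hj).symm, hi, hjP⟩

/-- **Chart input at a multibranch point.** -/
theorem exists_lift_of_transversal [IsNoetherianRing R] [IsLocalRing R] [Nonempty ι] (ℓ : ι → R)
    (hprime : ∀ i, (Ideal.span {ℓ i}).IsPrime)
    (htrans : ∀ i j, i ≠ j → ∀ P : Ideal R, P.IsPrime → ℓ i ∈ P → ℓ j ∈ P → P = maximalIdeal R)
    (ϖ : R) (e : ι → ℕ) (u : R) (hϖ : ϖ * u = ∏ i, ℓ i ^ e i)
    (hϖ' : ∀ i, ϖ ∈ Ideal.span {ℓ i})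
    {n : ℕ} (hn0 : n ≠ 0) (hn : IsUnit (n : R)) {v : R} (hv : IsUnit v)
    (h : ι → R) (hh : ∀ i, v * h i ^ n - 1 ∈ Ideal.span {ℓ i})
    (c : R) (hc : ∀ i, h i - c ∈ maximalIdeal R) (m : ℕ) :
    ∃ w : R, (∀ i, w - h i ∈ Ideal.span {ℓ i}) ∧ v * w ^ n - 1 ∈ Ideal.span {ϖ ^ m} := by
  classical
  -- the ring of branches
  let Bt := ∀ i, R ⧸ Ideal.span {ℓ i}
  set p : R := ∏ i, ℓ i with hp
  set s : R := conductorElt ℓ with hs
  set I : Ideal R := Ideal.span {p, s} with hI
  have hℓmem : ∀ i, ℓ i ∈ maximalIdeal R := by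
    intro i
    rw [mem_maximalIdeal, mem_nonunits_iff]
    intro hu
    exact (hprime i).ne_top (Ideal.eq_top_of_isUnit_mem _ (Ideal.mem_span_singleton_self _) hu)
  have hmk : ∀ (i : ι) (r : R), algebraMap R Bt r i = Ideal.Quotient.mk (Ideal.span {ℓ i}) r :=
    fun _ _ => rfl
  -- `I · Bt ⊆ R`
  have hcond : ∀ b ∈ I, ∀ x : Bt, x * algebraMap R Bt b ∈ (algebraMap R Bt).range := by
    intro b hb x
    obtain ⟨a, a', rfl⟩ := Ideal.mem_span_pair.mp hb
    choose r hr using fun i => Ideal.Quotient.mk_surjective (x i)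
    refine ⟨∑ i, r i * a' * ∏ j ∈ Finset.univ.erase i, ℓ j, ?_⟩
    funext i
    rw [hmk, Pi.mul_apply, hmk, ← hr i, ← map_mul, ← sub_eq_zero, ← map_sub,
      Ideal.Quotient.eq_zero_iff_mem]
    -- modulo `ℓ i` only the `i`-th summand survives, `p ≡ 0` and `s ≡ ∏ j ≠ i, ℓ j`
    have h1 : (∑ k, r k * a' * ∏ j ∈ Finset.univ.erase k, ℓ j) -
        r i * a' * ∏ j ∈ Finset.univ.erase i, ℓ j ∈ Ideal.span {ℓ i} := by
      rw [← Finset.add_sum_erase _ _ (Finset.mem_univ i), add_sub_cancel_left]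
      refine Ideal.sum_mem _ fun k hk => ?_
      have hik : i ∈ Finset.univ.erase k :=
        Finset.mem_erase.mpr ⟨(Finset.ne_of_mem_erase hk).symm, Finset.mem_univ i⟩
      exact Ideal.mul_mem_left _ _ (Ideal.mem_span_singleton.mpr (Finset.dvd_prod_of_mem _ hik))
    have h2 : p ∈ Ideal.span {ℓ i} :=
      Ideal.mem_span_singleton.mpr (Finset.dvd_prod_of_mem _ (Finset.mem_univ i))
    have h3 := conductorElt_sub_mem ℓ i
    have h4 : (∑ k, r k * a' * ∏ j ∈ Finset.univ.erase k, ℓ j) - r i * (a * p + a' * s) =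
        ((∑ k, r k * a' * ∏ j ∈ Finset.univ.erase k, ℓ j) -
          r i * a' * ∏ j ∈ Finset.univ.erase i, ℓ j) - r i * a * p -
          r i * a' * (conductorElt ℓ - ∏ j ∈ Finset.univ.erase i, ℓ j) := by
      rw [hs]; ring
    rw [h4]
    exact Ideal.sub_mem _ (Ideal.sub_mem _ h1 (Ideal.mul_mem_left _ _ h2))
      (Ideal.mul_mem_left _ _ h3)
  -- `R ⧸ I` is artinian
  have hart : IsArtinianRing (R ⧸ I) := by
    rw [isArtinianRing_iff_krullDimLE_zero, Ring.krullDimLE_zero_iff]
    intro J hJ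
    have hcomap : (J.comap (Ideal.Quotient.mk I)).IsPrime := Ideal.comap_isPrime _ _
    have hIle : I ≤ J.comap (Ideal.Quotient.mk I) := by
      intro x hx
      rw [Ideal.mem_comap, Ideal.Quotient.eq_zero_iff_mem.mpr hx]
      exact J.zero_mem
    have hpJ : p ∈ J.comap (Ideal.Quotient.mk I) :=
      hIle (Ideal.subset_span (by simp))
    have hsJ : s ∈ J.comap (Ideal.Quotient.mk I) :=
      hIle (Ideal.subset_span (by simp))
    obtain ⟨i, j, hij, hi, hj⟩ := exists_ne_mem_of_prod_mem_of_conductorElt_mem ℓ _ hpJ hsJ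
    have hmax : J.comap (Ideal.Quotient.mk I) = maximalIdeal R := htrans i j hij _ hcomap hi hj
    have hJmap : J = (J.comap (Ideal.Quotient.mk I)).map (Ideal.Quotient.mk I) :=
      (Ideal.map_comap_of_surjective _ Ideal.Quotient.mk_surjective J).symm
    rw [hJmap, hmax]
    rcases Ideal.map_eq_top_or_isMaximal_of_surjective (Ideal.Quotient.mk I)
      Ideal.Quotient.mk_surjective (maximalIdeal.isMaximal R) with htop | hmax'
    · exfalso
      rw [← hmax, ← hJmap] at htop
      exact hJ.ne_top htop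
    · exact hmax'
  have hartt : IsArtinianRing (Bt ⧸ I.map (algebraMap R Bt)) := isArtinianRing_quotient_map I
  -- the inverse root on the branches
  set ht : Bt := fun i => Ideal.Quotient.mk (Ideal.span {ℓ i}) (h i) with hht
  obtain ⟨vu, hvu⟩ := hv
  set f : R := ((vu⁻¹ : Rˣ) : R) with hf
  have hfu : IsUnit f := (vu⁻¹).isUnit
  have hvf : v * f = 1 := by rw [← hvu, hf, Units.mul_inv]
  have hhf : ht ^ n = algebraMap R Bt f := by
    funext i
    rw [Pi.pow_apply, hmk, hht, ← map_pow, ← sub_eq_zero, ← map_sub,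
      Ideal.Quotient.eq_zero_iff_mem]
    have := Ideal.mul_mem_left _ f (hh i)
    have h1 : f * (v * h i ^ n - 1) = h i ^ n - f := by
      rw [mul_sub, ← mul_assoc, mul_comm f v, hvf, one_mul, mul_one]
    rwa [h1] at this
  -- the common value
  have hcn : c ^ n - f ∈ maximalIdeal R := by
    obtain ⟨i⟩ := ‹Nonempty ι›
    have h1 : h i ^ n - f ∈ maximalIdeal R := by
      have := Ideal.mul_mem_left _ f (hh i)
      have h1 : f * (v * h i ^ n - 1) = h i ^ n - f := by
        rw [mul_sub, ← mul_assoc, mul_comm f v, hvf, one_mul, mul_one]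
      rw [h1] at this
      exact (Ideal.span_singleton_le_iff_mem (I := maximalIdeal R)).mpr (hℓmem i) this
    have h2 : h i ^ n - c ^ n ∈ maximalIdeal R :=
      Ideal.mem_of_dvd _ (sub_dvd_pow_sub_pow _ _ n) (hc i)
    have := Ideal.sub_mem _ h1 h2
    have h3 : h i ^ n - f - (h i ^ n - c ^ n) = c ^ n - f := by ring
    rwa [h3] at this
  -- `ht - c` lies in every maximal ideal of `Bt`
  have hjac : ht - algebraMap R Bt c ∈ Ideal.jacobson (⊥ : Ideal Bt) := by
    rw [Ideal.mem_jacobson_bot]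
    intro y
    rw [Pi.isUnit_iff]
    intro i
    obtain ⟨r, hr⟩ := Ideal.Quotient.mk_surjective (y i)
    have h1 : ((ht - algebraMap R Bt c) * y + 1) i =
        Ideal.Quotient.mk (Ideal.span {ℓ i}) ((h i - c) * r + 1) := by
      rw [Pi.add_apply, Pi.mul_apply, Pi.sub_apply, Pi.one_apply, hmk, hht, ← hr]
      simp only [map_add, map_mul, map_sub, map_one]
    rw [h1]
    refine IsUnit.map _ ?_
    have hmem : (h i - c) * r ∈ maximalIdeal R := Ideal.mul_mem_right _ _ (hc i)
    have hnot : (h i - c) * r + 1 ∉ maximalIdeal R := by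
      intro hcontra
      have := Ideal.sub_mem _ hcontra hmem
      rw [add_sub_cancel_left] at this
      exact (maximalIdeal.isMaximal R).ne_top ((Ideal.eq_top_iff_one _).mpr this)
    rwa [mem_maximalIdeal, mem_nonunits_iff, not_not] at hnot
  -- VALUES
  obtain ⟨w₀, hw₀⟩ : ht ∈ (algebraMap R Bt).range := by
    refine mem_range_of_values I hcond hn0 hn hfu hhf (fun _ => c) ?_ ?_
    · intro m' hm' _
      rw [IsLocalRing.eq_maximalIdeal hm']
      exact hcn
    · intro P hP m' _ _ _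
      rw [Ideal.jacobson, Ideal.mem_sInf] at hjac
      exact hjac ⟨bot_le, hP⟩
  have hw₀i : ∀ i, w₀ - h i ∈ Ideal.span {ℓ i} := by
    intro i
    have := congrFun hw₀ i
    rw [hmk, hht] at this
    rw [← Ideal.Quotient.eq_zero_iff_mem, map_sub, this, sub_self]
  -- `v * w₀ ^ n - 1` vanishes on every branch, hence lies in `rad(ϖ)`
  have hrad_le : ∀ i, (Ideal.span {ϖ}).radical ≤ Ideal.span {ℓ i} := by
    intro i
    rw [(hprime i).radical_le_iff, Ideal.span_singleton_le_iff_mem]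
    exact hϖ' i
  have hradmem : ∀ x : R, (∀ i, x ∈ Ideal.span {ℓ i}) → x ∈ (Ideal.span {ϖ}).radical := by
    intro x hx
    choose a ha using fun i => Ideal.mem_span_singleton'.mp (hx i)
    set E : ℕ := ∑ i, e i with hE
    refine ⟨Fintype.card ι * E, ?_⟩
    have h1 : x ^ Fintype.card ι = (∏ i, a i) * p := by
      rw [hp, ← Finset.prod_mul_distrib]
      simp only [ha]
      rw [Finset.prod_const, Finset.card_univ]
    have h2 : p ^ E = ϖ * u * ∏ i, ℓ i ^ (E - e i) := by
      rw [hϖ, ← Finset.prod_mul_distrib, hp, ← Finset.prod_pow]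
      refine Finset.prod_congr rfl fun i _ => ?_
      rw [← pow_add]
      congr 1
      have : e i ≤ E := Finset.single_le_sum (fun _ _ => Nat.zero_le _) (Finset.mem_univ i)
      omega
    rw [pow_mul, h1, mul_pow, h2]
    refine Ideal.mem_span_singleton'.mpr ⟨(∏ i, a i) ^ E * u * ∏ i, ℓ i ^ (E - e i), ?_⟩
    ring
  have hw₀rad : v * w₀ ^ n - 1 ∈ (Ideal.span {ϖ}).radical := by
    refine hradmem _ fun i => ?_
    have h1 : w₀ ^ n - h i ^ n ∈ Ideal.span {ℓ i} :=
      Ideal.mem_of_dvd _ (sub_dvd_pow_sub_pow _ _ n) (hw₀i i)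
    have := Ideal.add_mem _ (Ideal.mul_mem_left _ v h1) (hh i)
    have h2 : v * (w₀ ^ n - h i ^ n) + (v * h i ^ n - 1) = v * w₀ ^ n - 1 := by ring
    rwa [h2] at this
  -- Hensel through the nilpotents
  obtain ⟨N, hN⟩ := radical_pow_le_of_isNoetherianRing ϖ
  obtain ⟨w, hw, hww₀⟩ := exists_mul_pow_sub_one_mem_span_pow ϖ N hN hn0 hn ⟨vu, hvu⟩ w₀ hw₀rad m
  refine ⟨w, fun i => ?_, hw⟩
  have := Ideal.add_mem _ (hrad_le i hww₀) (hw₀i i)
  simpa using this

/-! ### Transversality from the cheap-factoriality situation -/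

section Nakayama

variable [IsDomain R]

/-- a proper principal ideal containing a nonzero prime element is generated by it -/
theorem span_singleton_eq_of_mem {ℓ g : R} (hℓ : (Ideal.span {ℓ}).IsPrime) (hℓ0 : ℓ ≠ 0)
    (hg : ¬ IsUnit g) (h : ℓ ∈ Ideal.span {g}) : Ideal.span {g} = Ideal.span {ℓ} := by
  obtain ⟨c, hc⟩ := Ideal.mem_span_singleton'.mp h
  have hmem : c * g ∈ Ideal.span {ℓ} := by
    rw [hc]
    exact Ideal.mem_span_singleton_self ℓ
  rcases hℓ.mem_or_mem hmem with hc' | hg'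
  · exfalso
    obtain ⟨c', hc'⟩ := Ideal.mem_span_singleton'.mp hc'
    have h1 : ℓ * (c' * g) = ℓ * 1 := by
      rw [mul_one]
      calc ℓ * (c' * g) = (c' * ℓ) * g := by ring
        _ = ℓ := by rw [hc', hc]
    have h2 : c' * g = 1 := mul_left_cancel₀ hℓ0 h1
    exact hg (IsUnit.of_mul_eq_one c' (by rw [mul_comm]; exact h2))
  · refine le_antisymm ?_ ?_
    · rwa [Ideal.span_singleton_le_iff_mem]
    · rwa [Ideal.span_singleton_le_iff_mem]

/-- **Transversality for free.**  `R` a noetherian local domain, `y₀` in the maximal ideal with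
`R ⧸ (y₀)` a principal ideal domain.  If `ℓ`, `ℓ'` are nonzero prime elements generating different
ideals, the only prime containing both is the maximal ideal. -/
theorem eq_maximalIdeal_of_mem_of_mem [IsNoetherianRing R] [IsLocalRing R] {y₀ : R}
    (hy₀ : y₀ ∈ maximalIdeal R) [IsPrincipalIdealRing (R ⧸ Ideal.span {y₀})]
    [IsDomain (R ⧸ Ideal.span {y₀})]
    {ℓ ℓ' : R} (hℓ : (Ideal.span {ℓ}).IsPrime) (hℓ' : (Ideal.span {ℓ'}).IsPrime)
    (hℓ0 : ℓ ≠ 0) (hℓ'0 : ℓ' ≠ 0) (hne : Ideal.span {ℓ} ≠ Ideal.span {ℓ'})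
    (P : Ideal R) (hP : P.IsPrime) (h1 : ℓ ∈ P) (h2 : ℓ' ∈ P) : P = maximalIdeal R := by
  have hy₀u : ¬ IsUnit y₀ := by
    rwa [mem_maximalIdeal, mem_nonunits_iff] at hy₀
  by_cases hy : y₀ ∈ P
  · -- `P ⊇ (y₀)`: look at the image of `P` in the principal ideal domain `R ⧸ (y₀)`
    set mk := Ideal.Quotient.mk (Ideal.span {y₀}) with hmk
    have hker : RingHom.ker mk ≤ P := by
      rw [hmk, Ideal.mk_ker, Ideal.span_singleton_le_iff_mem]
      exact hy
    have hQ : (P.map mk).IsPrime :=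
      Ideal.map_isPrime_of_surjective Ideal.Quotient.mk_surjective hker
    have hcomap : (P.map mk).comap mk = P := by
      rw [Ideal.comap_map_of_surjective mk Ideal.Quotient.mk_surjective, sup_eq_left]
      exact hker
    by_cases hbot : P.map mk = ⊥
    · exfalso
      have hPle : P ≤ Ideal.span {y₀} := by
        have := (Ideal.map_eq_bot_iff_le_ker mk).mp hbot
        rwa [hmk, Ideal.mk_ker] at this
      have hPeq : P = Ideal.span {y₀} :=
        le_antisymm hPle ((Ideal.span_singleton_le_iff_mem (I := P)).mpr hy)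
      have e1 := span_singleton_eq_of_mem hℓ hℓ0 hy₀u (hPeq ▸ h1)
      have e2 := span_singleton_eq_of_mem hℓ' hℓ'0 hy₀u (hPeq ▸ h2)
      exact hne (e1.symm.trans e2)
    · have hmax : (P.map mk).IsMaximal := IsPrime.to_maximal_ideal hbot
      have : P.IsMaximal := by
        rw [← hcomap]
        exact Ideal.comap_isMaximal_of_surjective mk Ideal.Quotient.mk_surjective
      exact IsLocalRing.eq_maximalIdeal this
  · -- `y₀ ∉ P`: `P` is principal by the Nakayama lemma
    exfalso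
    obtain ⟨g, hg⟩ := (FormalLift.isPrincipal_of_isLocalRing hy₀ P hy).principal
    have hg' : P = Ideal.span {g} := hg
    have hgu : ¬ IsUnit g := by
      intro hu
      exact hP.ne_top (hg' ▸ Ideal.span_singleton_eq_top.mpr hu)
    have e1 := span_singleton_eq_of_mem hℓ hℓ0 hgu (hg' ▸ h1)
    have e2 := span_singleton_eq_of_mem hℓ' hℓ'0 hgu (hg' ▸ h2)
    exact hne (e1.symm.trans e2)

/-- **Chart input at a multibranch point, cheap-factoriality form.** -/
theorem exists_lift_of_quotient_pid [IsNoetherianRing R] [IsLocalRing R] [Nonempty ι] {y₀ : R}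
    (hy₀ : y₀ ∈ maximalIdeal R) [IsPrincipalIdealRing (R ⧸ Ideal.span {y₀})]
    [IsDomain (R ⧸ Ideal.span {y₀})] (ℓ : ι → R)
    (hprime : ∀ i, (Ideal.span {ℓ i}).IsPrime) (hℓ0 : ∀ i, ℓ i ≠ 0)
    (hne : ∀ i j, i ≠ j → Ideal.span {ℓ i} ≠ Ideal.span {ℓ j})
    (ϖ : R) (e : ι → ℕ) (u : R) (hϖ : ϖ * u = ∏ i, ℓ i ^ e i)
    (hϖ' : ∀ i, ϖ ∈ Ideal.span {ℓ i})
    {n : ℕ} (hn0 : n ≠ 0) (hn : IsUnit (n : R)) {v : R} (hv : IsUnit v)
    (h : ι → R) (hh : ∀ i, v * h i ^ n - 1 ∈ Ideal.span {ℓ i})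
    (c : R) (hc : ∀ i, h i - c ∈ maximalIdeal R) (m : ℕ) :
    ∃ w : R, (∀ i, w - h i ∈ Ideal.span {ℓ i}) ∧ v * w ^ n - 1 ∈ Ideal.span {ϖ ^ m} :=
  exists_lift_of_transversal ℓ hprime
    (fun i j hij P hP hi hj =>
      eq_maximalIdeal_of_mem_of_mem hy₀ (hprime i) (hprime j) (hℓ0 i) (hℓ0 j) (hne i j hij) P hP
        hi hj)
    ϖ e u hϖ hϖ' hn0 hn hv h hh c hc m

end Nakayama

end Fermat.Agent.S36.ZC
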